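import Mathlib
import Fermat.Agent.TC.Free

/-!
# No elliptic elements of order three
-/

set_option autoImplicit false

noncomputable section

namespace Fermat.Agent.H24R

open Fermat.Agent.TC CongruenceSubgroup ModularGroup
open scoped MatrixGroups

lemma trace_U : ((U : SL(2, ℤ)) : Matrix (Fin 2) (Fin 2) ℤ).trace = 1 := by
  rw [U, Matrix.SpecialLinearGroup.coe_mul, coe_S, coe_T]
  simp [Matrix.trace, Matrix.mul_apply, Fin.sum_univ_two]

/-- the key fact: no solution of `a² - a + 1 = 0` modulo a prime `r ≡ 2 mod 3` -/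
lemma no_root {r : ℕ} [Fact r.Prime] (hr : r % 3 = 2) (a : ZMod r) : a * a - a + 1 ≠ 0 := by
  intro h
  set b : ZMod r := -a with hb
  have h1 : b * b + b + 1 = 0 := by rw [hb]; linear_combination h
  have h3 : b ^ 3 = 1 := by linear_combination (b - 1) * h1
  have hb1 : b ≠ 1 := by
    intro h4
    rw [h4] at h1
    have h5 : ((3 : ℕ) : ZMod r) = 0 := by push_cast; linear_combination h1
    rw [ZMod.natCast_eq_zero_iff] at h5
    have h6 := (Nat.prime_dvd_prime_iff_eq (Fact.out : r.Prime) Nat.prime_three).mp h5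
    rw [h6] at hr
    omega
  have hb0 : b ≠ 0 := by
    rintro h4
    rw [h4] at h3
    simp at h3
  have h4 : orderOf b = 3 := orderOf_eq_prime h3 hb1
  have h5 := ZMod.orderOf_dvd_card_sub_one hb0
  rw [h4] at h5
  have h6 := (Fact.out : r.Prime).one_lt
  omega

/-- **No elliptic elements of order three** if a prime `r ≡ 2 mod 3` (e.g. `2`) divides the
level. -/
theorem U_smul_ne {N r : ℕ} (hr : r.Prime) (hr3 : r % 3 = 2) (hrN : r ∣ N)
    (x : SL(2, ℤ) ⧸ Gamma0 N) : U • x ≠ x := by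
  haveI : Fact r.Prime := ⟨hr⟩
  induction x using QuotientGroup.induction_on with
  | H g =>
    intro h
    have h1 : ((U * g : SL(2, ℤ)) : SL(2, ℤ) ⧸ Gamma0 N) = (g : SL(2, ℤ) ⧸ Gamma0 N) := h
    have h2 : g⁻¹ * (U * g) ∈ Gamma0 N := by
      have := QuotientGroup.eq.mp h1.symm
      exact this
    obtain ⟨γ, hγ⟩ : ∃ γ, γ = g⁻¹ * (U * g) := ⟨_, rfl⟩
    have htr : (γ : Matrix (Fin 2) (Fin 2) ℤ).trace = 1 := by
      rw [hγ, Matrix.SpecialLinearGroup.coe_mul, Matrix.SpecialLinearGroup.coe_mul,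
        Matrix.trace_mul_comm, mul_assoc, ← Matrix.SpecialLinearGroup.coe_mul, mul_inv_cancel,
        Matrix.SpecialLinearGroup.coe_one, mul_one, trace_U]
    rw [← hγ, Gamma0_mem] at h2
    have hdet : γ 0 0 * γ 1 1 - γ 0 1 * γ 1 0 = 1 := by
      rw [← Matrix.det_fin_two]; exact γ.2
    rw [Matrix.trace_fin_two] at htr
    have hc : ((γ 1 0 : ℤ) : ZMod r) = 0 := by
      rw [ZMod.intCast_zmod_eq_zero_iff_dvd] at h2 ⊢
      exact (Int.natCast_dvd_natCast.mpr hrN).trans h2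
    apply no_root hr3 ((γ 0 0 : ℤ) : ZMod r)
    have e1 := congrArg (Int.cast : ℤ → ZMod r) hdet
    have e2 := congrArg (Int.cast : ℤ → ZMod r) htr
    push_cast at e1 e2
    rw [hc] at e1
    linear_combination -e1 + ((γ 0 0 : ℤ) : ZMod r) * e2

/-- the hypothesis `Ell` -/
theorem ell_of_dvd {p N r : ℕ} (hr : r.Prime) (hr3 : r % 3 = 2) (hrN : r ∣ N) : Ell p N :=
  Or.inr (U_smul_ne hr hr3 hrN)

theorem ell_of_even {p N : ℕ} (h : 2 ∣ N) : Ell p N := ell_of_dvd Nat.prime_two rfl h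

/-- the case `9 ∣ N` -/
theorem ell_of_nine {p N : ℕ} (h : 9 ∣ N) : Ell p N := by
  right
  intro x
  induction x using QuotientGroup.induction_on with
  | H g =>
    intro h
    have h1 : ((U * g : SL(2, ℤ)) : SL(2, ℤ) ⧸ Gamma0 N) = (g : SL(2, ℤ) ⧸ Gamma0 N) := h
    have h2 : g⁻¹ * (U * g) ∈ Gamma0 N := by
      have := QuotientGroup.eq.mp h1.symm
      exact this
    obtain ⟨γ, hγ⟩ : ∃ γ, γ = g⁻¹ * (U * g) := ⟨_, rfl⟩
    have htr : (γ : Matrix (Fin 2) (Fin 2) ℤ).trace = 1 := by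
      rw [hγ, Matrix.SpecialLinearGroup.coe_mul, Matrix.SpecialLinearGroup.coe_mul,
        Matrix.trace_mul_comm, mul_assoc, ← Matrix.SpecialLinearGroup.coe_mul, mul_inv_cancel,
        Matrix.SpecialLinearGroup.coe_one, mul_one, trace_U]
    rw [← hγ, Gamma0_mem] at h2
    have hdet : γ 0 0 * γ 1 1 - γ 0 1 * γ 1 0 = 1 := by
      rw [← Matrix.det_fin_two]; exact γ.2
    rw [Matrix.trace_fin_two] at htr
    have hc : ((γ 1 0 : ℤ) : ZMod 9) = 0 := by
      rw [ZMod.intCast_zmod_eq_zero_iff_dvd] at h2 ⊢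
      exact (Int.natCast_dvd_natCast.mpr ‹9 ∣ N›).trans h2
    have key : ∀ a : ZMod 9, a * a - a + 1 ≠ 0 := by decide
    apply key ((γ 0 0 : ℤ) : ZMod 9)
    have e1 := congrArg (Int.cast : ℤ → ZMod 9) hdet
    have e2 := congrArg (Int.cast : ℤ → ZMod 9) htr
    push_cast at e1 e2
    rw [hc] at e1
    linear_combination -e1 + ((γ 0 0 : ℤ) : ZMod 9) * e2

end Fermat.Agent.H24R
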