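import Fermat.Agent.TW.Select
import Fermat.Agent.H25.HeckeComp
set_option autoImplicit false

/-!
# Auxiliary primes congruent to 2 modulo 3
-/

namespace Fermat.Agent.H24R

open Matrix Fermat.Agent.CC Fermat.Agent.TW
open scoped Pointwise

variable {k : Type*} [Field k] {S : Finset Nat.Primes} {r : GQ →* Mt k} {χ : GQ →* k}

theorem chi_ker (h : TWData 3 S r χ) {u : GQ} (hu : u ∈ r.ker) : χ u = 1 := by
  rw [← h.det, MonoidHom.mem_ker.1 hu, Matrix.det_one]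

theorem chi_frob (h : TWData 3 S r χ) {q : ℕ} (hq : q.Prime) (hq3 : q ≠ 3)
    {A : ValuationSubring Qb} (hA : A.LiesOverPrime q) {φ : GQ} (hφ : A.IsFrobeniusAt φ q) :
    χ φ = q := by
  apply h.chi
  intro x hx
  exact H05.IsFrobeniusAt.apply_rootOfUnity hq hA
    (fun h2 => hq3 ((Nat.prime_dvd_prime_iff_eq hq Nat.prime_three).1 h2)) hφ hx

theorem cast_mod_three [CharP k 3] (q : ℕ) : ((q : ℕ) : k) = ((q % 3 : ℕ) : k) := by
  have h3 : ((3 : ℕ) : k) = 0 := CharP.cast_eq_zero k 3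
  conv_lhs => rw [← Nat.mod_add_div q 3]
  rw [Nat.cast_add, Nat.cast_mul, h3, zero_mul, add_zero]

theorem two_eq [CharP k 3] : (2 : k) = -1 := by
  have h3 : ((3 : ℕ) : k) = 0 := CharP.cast_eq_zero k 3
  push_cast at h3
  linear_combination h3

theorem one_ne_neg_one [CharP k 3] : (1 : k) ≠ -1 := by
  intro h
  rw [← two_eq] at h
  have : (1 : k) = 0 := by linear_combination -h
  exact one_ne_zero this

theorem chi_frob_cases [CharP k 3] (h : TWData 3 S r χ) {q : ℕ} (hq : q.Prime) (hq3 : q ≠ 3)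
    {A : ValuationSubring Qb} (hA : A.LiesOverPrime q) {φ : GQ} (hφ : A.IsFrobeniusAt φ q) :
    (χ φ = 1 ∧ q % 3 = 1) ∨ (χ φ = -1 ∧ q % 3 = 2) := by
  have h1 := chi_frob h hq hq3 hA hφ
  rw [cast_mod_three] at h1
  have h2 : q % 3 ≠ 0 := by
    intro h0
    exact hq3 ((Nat.prime_dvd_prime_iff_eq Nat.prime_three hq).1 (Nat.dvd_of_mod_eq_zero h0)).symm
  have h3 : q % 3 = 1 ∨ q % 3 = 2 := by omega
  rcases h3 with h3 | h3
  · left
    rw [h3] at h1
    exact ⟨by simpa using h1, h3⟩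
  · right
    rw [h3] at h1
    refine ⟨?_, h3⟩
    rw [h1, ← two_eq]
    norm_num

theorem chi_cases [CharP k 3] (h : TWData 3 S r χ) (σ : GQ) : χ σ = 1 ∨ χ σ = -1 := by
  obtain ⟨q, hq, hqT, A, hA, φ, hφ, n, u, hu, rfl⟩ :=
    H25.TR.exists_frobenius_lev h.open_ker {3} σ
  have hq3 : q ≠ 3 := by simpa using hqT
  rw [map_mul, chi_ker h hu, mul_one, map_pow]
  rcases chi_frob_cases h hq hq3 hA hφ with ⟨h1, -⟩ | ⟨h1, -⟩
  · left; rw [h1, one_pow]
  · rw [h1]; exact neg_one_pow_eq_or k n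

theorem exists_chi_neg [CharP k 3] (h : TWData 3 S r χ) : ∃ c : GQ, χ c = -1 := by
  have hg := Fermat.Agent.H51.isGalois_Qbar
  obtain ⟨A, hA⟩ := H05.exists_liesOverPrime Qb Nat.prime_two
  obtain ⟨φ, hφ⟩ := H05.exists_isFrobeniusAt Nat.prime_two hA
  refine ⟨φ, ?_⟩
  rw [chi_frob h Nat.prime_two (by norm_num) hA hφ, ← two_eq]
  norm_num

/-- the kernel of the cyclotomic character -/
def kerChi (χ : GQ →* k) : Subgroup GQ where
  carrier := {g | χ g = 1}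
  one_mem' := map_one χ
  mul_mem' := by
    intro a b ha hb
    change χ (a * b) = 1
    rw [map_mul, show χ a = 1 from ha, show χ b = 1 from hb, one_mul]
  inv_mem' := by
    intro a ha
    change χ a⁻¹ = 1
    have h1 : χ a * χ a⁻¹ = 1 := by rw [← map_mul, mul_inv_cancel, map_one]
    rwa [show χ a = 1 from ha, one_mul] at h1

theorem mem_kerChi {g : GQ} : g ∈ kerChi χ ↔ χ g = 1 := Iff.rfl

theorem kerChi_index [CharP k 3] (h : TWData 3 S r χ) : (kerChi χ).index = 2 := by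
  obtain ⟨c, hc⟩ := exists_chi_neg h
  rw [Subgroup.index_eq_two_iff]
  refine ⟨c, fun b => ?_⟩
  rw [mem_kerChi, mem_kerChi, map_mul, hc]
  have h1 : (1 : k) ≠ -1 := one_ne_neg_one
  rcases chi_cases h b with hb | hb
  · rw [hb]
    right
    refine ⟨rfl, ?_⟩
    rw [one_mul]
    exact fun h2 => h1 h2.symm
  · rw [hb]
    left
    refine ⟨by ring, fun h2 => h1 h2.symm⟩

/-- an element with `χ = -1` and nonzero trace. -/
theorem exists_good_elt [CharP k 3] (h : TWData 3 S r χ) :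
    ∃ σ : GQ, χ σ = -1 ∧ (r σ).trace ≠ 0 := by
  obtain ⟨c, hc⟩ := exists_chi_neg h
  have hw : r c ≠ 0 := by
    intro h0
    have h1 := h.det c
    rw [h0, hc, Matrix.det_zero] at h1
    exact one_ne_zero (by linear_combination h1 : (1 : k) = 0)
  have : Fact (Nat.Prime 3) := ⟨Nat.prime_three⟩
  obtain ⟨x, hx, hx'⟩ := (h.noLine2 _ (kerChi_index h)).exists_trace_ne hw
  refine ⟨c * x, ?_, ?_⟩
  · rw [map_mul, hc, mem_kerChi.1 hx, mul_one]
  · rw [map_mul]; exact hx'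

/-- **Auxiliary primes congruent to 2 modulo 3**: outside any finite set there is a prime
`q ≡ 2 mod 3` such that the trace of Frobenius at `q` is nonzero. -/
theorem exists_aux [CharP k 3] (h : TWData 3 S r χ) (T : Finset ℕ)
    (hpT : 3 ∈ T) (hST : ∀ q ∈ S, (q : ℕ) ∈ T) :
    ∃ q : ℕ, q.Prime ∧ q ∉ T ∧ q % 3 = 2 ∧ ∀ A : ValuationSubring Qb, A.LiesOverPrime q →
      ∀ φ : GQ, A.IsFrobeniusAt φ q → χ φ = -1 ∧ (r φ).trace ≠ 0 := by
  have hg := Fermat.Agent.H51.isGalois_Qbar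
  obtain ⟨σ, hσ, hσt⟩ := exists_good_elt h
  obtain ⟨q, hq, hqT, A, hA, φ, hφ, n, u, hu, rfl⟩ :=
    H25.TR.exists_frobenius_lev h.open_ker T σ
  have hq3 : q ≠ 3 := by rintro rfl; exact hqT hpT
  rw [map_mul, chi_ker h hu, mul_one, map_pow] at hσ
  rw [map_mul, MonoidHom.mem_ker.1 hu, mul_one, map_pow] at hσt
  have hn1 : (1 : k) ≠ -1 := one_ne_neg_one
  obtain ⟨hχ, hq2⟩ : χ φ = -1 ∧ q % 3 = 2 := by
    rcases chi_frob_cases h hq hq3 hA hφ with h1 | h1
    · rw [h1.1, one_pow] at hσ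
      exact absurd hσ hn1
    · exact h1
  have hodd : Odd n := by
    rcases Nat.even_or_odd n with h1 | h1
    · rw [hχ, h1.neg_one_pow] at hσ
      exact absurd hσ hn1
    · exact h1
  have htr : (r φ).trace ≠ 0 := by
    intro h0
    apply hσt
    have h1 : r φ * r φ = 1 := by
      rw [cayley, h0, h.det, hχ]
      simp
    obtain ⟨m, rfl⟩ := hodd
    rw [pow_add, pow_mul, pow_two, h1, one_pow, one_mul, pow_one, h0]
  refine ⟨q, hq, hqT, hq2, fun B hB ψ hψ => ?_⟩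
  refine ⟨?_, ?_⟩
  · rcases chi_frob_cases h hq hq3 hB hψ with h1 | h1
    · omega
    · exact h1.1
  · obtain ⟨g, rfl⟩ := H05.exists_smul_eq hq hA hB
    have h2 := H05.IsFrobeniusAt.conj hq hA hφ g
    have h3 := H05.IsFrobeniusAt.inv_mul_mem h2 hψ
    have h4 := h.r_inertia (q := ⟨q, hq⟩) (TWData.toNat_mem hST hq hqT) hB h3
    have h5 : ψ = g * φ * g⁻¹ * ((g * φ * g⁻¹)⁻¹ * ψ) := by group
    rw [h5, map_mul, h4, mul_one, map_mul, map_mul, TW.trace_conj]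
    exact htr

/-- version with the level raising condition -/
theorem exists_aux' [CharP k 3] (h : TWData 3 S r χ) (T : Finset ℕ)
    (hpT : 3 ∈ T) (hST : ∀ q ∈ S, (q : ℕ) ∈ T) :
    ∃ q : ℕ, q.Prime ∧ q ∉ T ∧ q % 3 = 2 ∧ ∀ A : ValuationSubring Qb, A.LiesOverPrime q →
      ∀ φ : GQ, A.IsFrobeniusAt φ q → (r φ).det = q ∧ (r φ).trace ^ 2 ≠ ((q : k) + 1) ^ 2 := by
  obtain ⟨q, hq, hqT, hq2, hA⟩ := exists_aux h T hpT hST
  refine ⟨q, hq, hqT, hq2, fun A hA' φ hφ => ?_⟩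
  obtain ⟨h1, h2⟩ := hA A hA' φ hφ
  have hqk : (q : k) = -1 := by
    rw [cast_mod_three, hq2, ← two_eq]; norm_num
  refine ⟨by rw [h.det, h1, hqk], ?_⟩
  rw [hqk]
  simpa using h2

end Fermat.Agent.H24R
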