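import Mathlib
import Fermat.Agent.TC.Levels

/-!
# Level change at an auxiliary prime

Generalisation of `TC.tw_bijective`, `TC.tw_level`, `TC.tw_level'` to primes `r` which are not
congruent to one: the only requirement is that `X² - a_r X + r` has roots `α ≠ β` in the residue
field with `α ≠ 0` and `α² ≠ 1`.
-/

set_option autoImplicit false
set_option linter.style.haveILetI false
set_option linter.unusedSectionVars false

noncomputable section

universe u

namespace Fermat.Agent.H24R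

open Fermat.Agent.TC
open IsLocalRing MvPolynomial

section TW

variable {O : Type u} [CommRing O] [IsDomain O] [IsNoetherianRing O] [IsLocalRing O]
  [IsAdicComplete (maximalIdeal O) O] {σ : Type} [DecidableEq σ]
  {M₁ M₂ : Type u} [AddCommGroup M₁] [Module O M₁] [Module.Finite O M₁]
  [AddCommGroup M₂] [Module O M₂] [Module.Finite O M₂]

/-- **Level change at a prime with distinct roots**, abstract form. -/
theorem tw_bijective_gen (τ₁ : MvPolynomial σ O →ₐ[O] Module.End O M₁)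
    (τ₂ : MvPolynomial σ O →ₐ[O] Module.End O M₂)
    (htf₁ : ∀ c : O, c ≠ 0 → ∀ x : M₁, c • x = 0 → x = 0)
    (htf₂ : ∀ c : O, c ≠ 0 → ∀ x : M₂, c • x = 0 → x = 0)
    (i₀ : σ) (i₁ i₂ : M₁ →ₗ[O] M₂) (j : M₂ →ₗ[O] M₁) (Q : O)
    (hU1 : ∀ x, τ₂ (X i₀) (i₁ x) = Q • i₂ x)
    (hU2 : ∀ x, τ₂ (X i₀) (i₂ x) = i₂ (τ₁ (X i₀) x) - i₁ x)
    (hj1 : ∀ x, j (i₁ x) = (Q + 1) • x) (hj2 : ∀ x, j (i₂ x) = τ₁ (X i₀) x)
    (hi1 : ∀ i, i ≠ i₀ → ∀ x, i₁ (τ₁ (X i) x) = τ₂ (X i) (i₁ x))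
    (hi2 : ∀ i, i ≠ i₀ → ∀ x, i₂ (τ₁ (X i) x) = τ₂ (X i) (i₂ x))
    (a : σ → ResidueField O) (α β : ResidueField O) (hαβ : α * β = residue O Q)
    (ha : a i₀ = α + β) (hne : α ≠ β) (hα0 : α ≠ 0) (hα1 : α * α ≠ 1)
    (hold : ∀ v ∈ locPart τ₂ (mx (Function.update a i₀ α)),
      ∃ c : O, c ≠ 0 ∧ ∃ x y, c • v = i₁ x + i₂ y) :
    (∀ v ∈ locPart τ₂ (mx (Function.update a i₀ α)), j v ∈ locPart τ₁ (mx a)) ∧
    (∀ v ∈ locPart τ₂ (mx (Function.update a i₀ α)), j v = 0 → v = 0) ∧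
    (∀ x ∈ locPart τ₁ (mx a), ∃ v ∈ locPart τ₂ (mx (Function.update a i₀ α)), j v = x) := by
  set a' := Function.update a i₀ α with ha'
  have ha'0 : a' i₀ = α := by rw [ha', Function.update_self]
  have ha'i : ∀ i, i ≠ i₀ → a' i = a i := fun i hi => by rw [ha', Function.update_of_ne hi]
  obtain ⟨A, hAα, hA⟩ := exists_root τ₁ a i₀ Q α β ha hαβ hne
  obtain ⟨e, he⟩ := exists_dec τ₁ (mx a) (mx_le a)
  -- `A² = TA - Q` on `V₁`
  have hA2 : ∀ v ∈ locPart τ₁ (mx a), τ₁ (X i₀) (τ₁ A v) = τ₁ A (τ₁ A v) + Q • v := by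
    intro v hv
    have h1 := hA v hv
    rw [map_add, map_sub, map_mul, map_mul, ← MvPolynomial.algebraMap_eq, AlgHom.commutes,
      LinearMap.add_apply, LinearMap.sub_apply, Module.End.mul_apply, Module.End.mul_apply,
      Module.algebraMap_end_apply] at h1
    rw [sub_add_eq_add_sub, sub_eq_zero] at h1
    exact h1.symm
  let w : M₁ →ₗ[O] M₂ := i₁ - i₂ ∘ₗ (τ₁ A)
  have hw : ∀ x, w x = i₁ x - i₂ (τ₁ A x) := fun x => rfl
  -- substitution
  let sb : MvPolynomial σ O →ₐ[O] MvPolynomial σ O :=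
    MvPolynomial.aeval (fun i => if i = i₀ then A else X i)
  have hsb0 : sb (X i₀) = A := by
    change MvPolynomial.aeval _ _ = _
    rw [MvPolynomial.aeval_X, if_pos rfl]
  have hsbi : ∀ i, i ≠ i₀ → sb (X i) = X i := by
    intro i hi
    change MvPolynomial.aeval _ _ = _
    rw [MvPolynomial.aeval_X, if_neg hi]
  have hsbev : ∀ s, evR a (sb s) = evR a' s := by
    intro s
    induction s using MvPolynomial.induction_on with
    | C c => rw [← MvPolynomial.algebraMap_eq, AlgHom.commutes, MvPolynomial.algebraMap_eq,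
        evR_C, evR_C]
    | add s t hs ht => rw [map_add, map_add, map_add, hs, ht]
    | mul_X s i hs =>
      rw [map_mul, map_mul, map_mul, hs, evR_X]
      by_cases hi : i = i₀
      · subst hi
        rw [hsb0, hAα, ha'0]
      · rw [hsbi i hi, evR_X, ha'i i hi]
  have hwX : ∀ i, ∀ x ∈ locPart τ₁ (mx a), τ₂ (X i) (w x) = w (τ₁ (sb (X i)) x) := by
    intro i x hx
    by_cases hi : i = i₀
    · subst hi
      rw [hsb0, hw, hw, map_sub, hU1, hU2, hA2 x hx, map_add, map_smul]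
      abel
    · rw [hsbi i hi, hw, hw, map_sub, hi1 i hi, ← hi2 i hi, τ_comm τ₁ (X i) A]
  have hwτ : ∀ s, ∀ x ∈ locPart τ₁ (mx a), τ₂ s (w x) = w (τ₁ (sb s) x) := by
    intro s
    induction s using MvPolynomial.induction_on with
    | C c =>
      intro x _
      rw [← MvPolynomial.algebraMap_eq, AlgHom.commutes, AlgHom.commutes, AlgHom.commutes,
        Module.algebraMap_end_apply, Module.algebraMap_end_apply, map_smul]
    | add s t hs ht =>
      intro x hx
      rw [map_add, map_add, map_add, LinearMap.add_apply, LinearMap.add_apply, map_add, hs x hx,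
        ht x hx]
    | mul_X s i hs =>
      intro x hx
      rw [map_mul, map_mul, map_mul, Module.End.mul_apply, Module.End.mul_apply, hwX i x hx,
        hs _ (τ_mem_locPart _ hx)]
  have hwmem : ∀ x ∈ locPart τ₁ (mx a), w x ∈ locPart τ₂ (mx a') := by
    intro x hx
    rw [mem_locPart]
    intro s hs
    have hs' : sb s ∉ mx a := by rw [mem_mx, hsbev, ← mem_mx]; exact hs
    obtain ⟨y, hy, hyx⟩ := he.surj hs' hx
    exact ⟨w y, by rw [hwτ s y hy, hyx]⟩
  -- the composite with `j`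
  have hjw : ∀ x ∈ locPart τ₁ (mx a), j (w x) = τ₁ (1 - A * A) x := by
    intro x hx
    rw [hw, map_sub, hj1, hj2, hA2 x hx, map_sub, map_one, map_mul, LinearMap.sub_apply,
      Module.End.one_apply, Module.End.mul_apply, add_smul, one_smul]
    abel
  have hD : (1 - A * A : MvPolynomial σ O) ∉ mx a := by
    rw [mem_mx, map_sub, map_one, map_mul, hAα, sub_eq_zero]
    exact fun h => hα1 h.symm
  -- surjectivity of `w`
  have hwsurj : ∀ v ∈ locPart τ₂ (mx a'), ∃ x ∈ locPart τ₁ (mx a), w x = v := by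
    intro v hv
    obtain ⟨c, hc, x₀, y₀, hxy⟩ := hold v hv
    -- the action on `M₁ × M₁`
    let Tf : σ → Module.End O (M₁ × M₁) := fun i =>
      if i = i₀ then comp2 (τ₁ (X i₀)) Q else LinearMap.prodMap (τ₁ (X i)) (τ₁ (X i))
    have hTf0 : Tf i₀ = comp2 (τ₁ (X i₀)) Q := if_pos rfl
    have hTfi : ∀ i, i ≠ i₀ → Tf i = LinearMap.prodMap (τ₁ (X i)) (τ₁ (X i)) := fun i hi => if_neg hi
    have hcomm0 : ∀ s : MvPolynomial σ O, comp2 (τ₁ (X i₀)) Q * LinearMap.prodMap (τ₁ s) (τ₁ s) =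
        LinearMap.prodMap (τ₁ s) (τ₁ s) * comp2 (τ₁ (X i₀)) Q := by
      intro s
      refine LinearMap.ext fun p => ?_
      obtain ⟨x, y⟩ := p
      rw [Module.End.mul_apply, Module.End.mul_apply, comp2_apply]
      change comp2 _ Q (τ₁ s x, τ₁ s y) = (τ₁ s (-y), τ₁ s (Q • x + τ₁ (X i₀) y))
      rw [comp2_apply, map_neg, map_add, map_smul, τ_comm τ₁ s]
    have hcomm : ∀ i k, Tf i * Tf k = Tf k * Tf i := by
      intro i k
      by_cases hi : i = i₀
      · by_cases hk : k = i₀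
        · rw [hi, hk]
        · rw [hi, hTf0, hTfi k hk, hcomm0]
      · by_cases hk : k = i₀
        · rw [hk, hTf0, hTfi i hi, hcomm0]
        · rw [hTfi i hi, hTfi k hk]
          refine LinearMap.ext fun p => ?_
          exact Prod.ext (τ_comm τ₁ (X i) (X k) p.1) (τ_comm τ₁ (X i) (X k) p.2)
    obtain ⟨τ, hτ⟩ := exists_actHom Tf hcomm
    have hfinM : Module.Finite O (M₁ × M₁) := inferInstance
    let ι : M₁ × M₁ →ₗ[O] M₂ := i₁.coprod i₂
    have hι : ∀ x y, ι (x, y) = i₁ x + i₂ y := fun x y => LinearMap.coprod_apply _ _ _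
    have hιτ : ∀ s p, ι (τ s p) = τ₂ s (ι p) := by
      intro s p
      refine act_intertwine ι.toAddMonoidHom (fun a x => map_smul ι a x) ?_ s p
      intro i p
      obtain ⟨x, y⟩ := p
      show ι (τ (X i) (x, y)) = τ₂ (X i) (ι (x, y))
      rw [hτ, hι x y, map_add]
      by_cases hi : i = i₀
      · subst hi
        rw [hTf0, comp2_apply, hι, hU1, hU2, map_neg, map_add, map_smul]
        abel
      · rw [hTfi i hi]
        change ι (τ₁ (X i) x, τ₁ (X i) y) = _
        rw [hι, hi1 i hi, hi2 i hi]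
    obtain ⟨e', he', he2⟩ := exists_dec₂ τ τ₂ (mx a') (mx_le a')
    -- inverse of `X i₀`
    have hX0 : (X i₀ : MvPolynomial σ O) ∉ mx a' := by
      rw [mem_mx, evR_X, ha'0]; exact hα0
    obtain ⟨t, ht, htev⟩ : ∃ t : MvPolynomial σ O,
        (∀ p ∈ locPart τ (mx a'), τ (X i₀) (τ t p) = p) ∧ evR a' t = α⁻¹ := by
      obtain ⟨t, ht⟩ := he'.inv _ hX0
      have ht1 : ∀ p ∈ locPart τ (mx a'), τ (X i₀) (τ t p) = p := by
        intro p hp
        have h1 : τ (X i₀) (τ t (τ e' p)) = τ e' p :=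
          congrArg (fun F : Module.End O (M₁ × M₁) => F p) ht
        rw [he'.apply_eq hp] at h1
        exact h1
      by_cases hm : X i₀ * t - 1 ∈ mx a'
      · refine ⟨t, ht1, ?_⟩
        rw [mem_mx, map_sub, map_mul, evR_X, ha'0, map_one, sub_eq_zero] at hm
        apply mul_left_cancel₀ hα0
        rw [hm, mul_inv_cancel₀ hα0]
      · have h0 : ∀ p ∈ locPart τ (mx a'), p = 0 := by
          intro p hp
          refine he'.bij hm hp ?_
          rw [map_sub, map_mul, map_one, LinearMap.sub_apply, Module.End.mul_apply,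
            Module.End.one_apply, ht1 p hp, sub_self]
        obtain ⟨β', hβ'⟩ := residue_surjective (R := O) (α⁻¹)
        refine ⟨C β', fun p hp => ?_, by rw [evR_C, hβ']⟩
        rw [h0 p hp, map_zero, map_zero]
    -- comparison of the diagonal action
    have hcmp : ∀ s : MvPolynomial σ O, ∃ s' : MvPolynomial σ O, evR a' s' = evR a s ∧
        ∀ p ∈ locPart τ (mx a'), LinearMap.prodMap (τ₁ s) (τ₁ s) p = τ s' p := by
      intro s
      induction s using MvPolynomial.induction_on with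
      | C c =>
        refine ⟨C c, by rw [evR_C, evR_C], fun p _ => ?_⟩
        rw [← MvPolynomial.algebraMap_eq, AlgHom.commutes, AlgHom.commutes,
          Module.algebraMap_end_apply]
        rfl
      | add s t hs ht =>
        obtain ⟨s', hs', hs''⟩ := hs
        obtain ⟨t', ht', ht''⟩ := ht
        refine ⟨s' + t', by rw [map_add, map_add, hs', ht'], fun p hp => ?_⟩
        rw [map_add, map_add, LinearMap.add_apply, ← hs'' p hp, ← ht'' p hp]
        rfl
      | mul_X s i hs =>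
        obtain ⟨s', hs', hs''⟩ := hs
        by_cases hi : i = i₀
        · subst hi
          refine ⟨s' * (X i + C Q * t), ?_, fun p hp => ?_⟩
          · rw [map_mul, map_mul, map_add, map_mul, evR_X, evR_C, evR_X, htev, ← hαβ, hs',
              ha'0, ha, mul_comm α β, mul_assoc, mul_inv_cancel₀ hα0, mul_one]
          · have h1 : LinearMap.prodMap (τ₁ (X i)) (τ₁ (X i)) p = τ (X i + C Q * t) p := by
              have h2 : ∀ p : M₁ × M₁, LinearMap.prodMap (τ₁ (X i)) (τ₁ (X i)) (τ (X i) p) =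
                  τ (X i) (τ (X i) p) + Q • p := by
                intro p
                obtain ⟨x, y⟩ := p
                rw [hτ, hTf0, comp2_apply, comp2_apply]
                change (τ₁ (X i) (-y), τ₁ (X i) (Q • x + τ₁ (X i) y)) = _
                refine Prod.ext ?_ ?_
                · change _ = -(Q • x + τ₁ (X i) y) + Q • x
                  rw [map_neg]; abel
                · change _ = Q • (-y) + τ₁ (X i) (Q • x + τ₁ (X i) y) + Q • y
                  rw [smul_neg]; abel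
              conv_lhs => rw [← ht p hp, h2, ht p hp]
              rw [map_add, map_mul, ← MvPolynomial.algebraMap_eq, AlgHom.commutes,
                LinearMap.add_apply, Module.End.mul_apply, Module.algebraMap_end_apply]
            have h3 : LinearMap.prodMap (τ₁ (s * X i)) (τ₁ (s * X i)) p =
                LinearMap.prodMap (τ₁ s) (τ₁ s) (LinearMap.prodMap (τ₁ (X i)) (τ₁ (X i)) p) := by
              rw [map_mul]; rfl
            rw [h3, h1, hs'' _ (τ_mem_locPart _ hp), ← Module.End.mul_apply, ← map_mul]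
        · refine ⟨s' * X i, by rw [map_mul, map_mul, evR_X, evR_X, hs', ha'i i hi],
            fun p hp => ?_⟩
          have h1 : LinearMap.prodMap (τ₁ (X i)) (τ₁ (X i)) p = τ (X i) p := by
            rw [hτ, hTfi i hi]
          have h3 : LinearMap.prodMap (τ₁ (s * X i)) (τ₁ (s * X i)) p =
              LinearMap.prodMap (τ₁ s) (τ₁ s) (LinearMap.prodMap (τ₁ (X i)) (τ₁ (X i)) p) := by
            rw [map_mul]; rfl
          rw [h3, h1, hs'' _ (τ_mem_locPart _ hp), ← Module.End.mul_apply, ← map_mul]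
    -- the vector
    have hp : τ e' (x₀, y₀) ∈ locPart τ (mx a') := he'.mem _
    have hcv : ι (τ e' (x₀, y₀)) = c • v := by
      rw [hιτ, hι, ← hxy, map_smul, he2.apply_eq hv]
    obtain ⟨⟨x, y⟩, hpxy⟩ : ∃ p : M₁ × M₁, p = τ e' (x₀, y₀) := ⟨_, rfl⟩
    rw [← hpxy] at hp hcv
    have hmem : ∀ p ∈ locPart τ (mx a'), p.1 ∈ locPart τ₁ (mx a) ∧ p.2 ∈ locPart τ₁ (mx a) := by
      intro p hp
      have key : ∀ s ∉ mx a, ∃ p' : M₁ × M₁, LinearMap.prodMap (τ₁ s) (τ₁ s) p' = p := by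
        intro s hs
        obtain ⟨s', hs', hs''⟩ := hcmp s
        have hs1 : s' ∉ mx a' := by rw [mem_mx, hs', ← mem_mx]; exact hs
        obtain ⟨p', hp', hpp'⟩ := he'.surj hs1 hp
        exact ⟨p', by rw [hs'' p' hp', hpp']⟩
      constructor
      · rw [mem_locPart]
        intro s hs
        obtain ⟨p', hp'⟩ := key s hs
        exact ⟨p'.1, congrArg Prod.fst hp'⟩
      · rw [mem_locPart]
        intro s hs
        obtain ⟨p', hp'⟩ := key s hs
        exact ⟨p'.2, congrArg Prod.snd hp'⟩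
    obtain ⟨hx, hy⟩ := hmem _ hp
    simp only at hx hy
    -- `y = - A x`
    have hz : y + τ₁ A x = 0 := by
      set z := y + τ₁ A x with hzdef
      have hzm : z ∈ locPart τ₁ (mx a) := add_mem hy (τ_mem_locPart A hx)
      obtain ⟨A', -, hA'⟩ := hcmp A
      obtain ⟨B', hB'ev, hB'⟩ := hcmp (X i₀ - A)
      have hp2 : (-z, τ₁ (X i₀ - A) z) = τ (X i₀ - A') (x, y) := by
        rw [map_sub τ (X i₀) A', LinearMap.sub_apply, ← hA' _ hp, hτ, hTf0, comp2_apply]
        change _ = (-y - τ₁ A x, Q • x + τ₁ (X i₀) y - τ₁ A y)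
        refine Prod.ext ?_ ?_
        · simp only [hzdef]; abel
        · simp only [hzdef]
          have h1 := hA2 x hx
          rw [map_sub, LinearMap.sub_apply, map_add, map_add, h1]
          abel
      have hp2m : (-z, τ₁ (X i₀ - A) z) ∈ locPart τ (mx a') := by
        rw [hp2]; exact τ_mem_locPart _ hp
      have h0 : τ (X i₀ - B') (-z, τ₁ (X i₀ - A) z) = 0 := by
        rw [map_sub τ (X i₀) B', LinearMap.sub_apply, ← hB' _ hp2m, hτ, hTf0, comp2_apply]
        change (-(τ₁ (X i₀ - A) z) - τ₁ (X i₀ - A) (-z),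
          Q • (-z) + τ₁ (X i₀) (τ₁ (X i₀ - A) z) - τ₁ (X i₀ - A) (τ₁ (X i₀ - A) z)) = 0
        refine Prod.ext ?_ ?_
        · change -(τ₁ (X i₀ - A) z) - τ₁ (X i₀ - A) (-z) = 0
          rw [map_neg]; abel
        · change Q • (-z) + τ₁ (X i₀) (τ₁ (X i₀ - A) z) - τ₁ (X i₀ - A) (τ₁ (X i₀ - A) z) = 0
          have h1 := hA2 z hzm
          have h2 : ∀ u : M₁, τ₁ (X i₀ - A) u = τ₁ (X i₀) u - τ₁ A u := fun u => by
            rw [map_sub, LinearMap.sub_apply]
          have h3 : τ₁ A (τ₁ (X i₀) z) = τ₁ (X i₀) (τ₁ A z) := τ_comm τ₁ _ _ _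
          rw [h2, h2, map_sub, map_sub, h3, h1, smul_neg]
          abel
      have hne' : X i₀ - B' ∉ mx a' := by
        rw [mem_mx, map_sub, evR_X, ha'0, hB'ev, map_sub, evR_X, ha, hAα, sub_eq_zero]
        intro h
        apply hne
        rw [h]; ring
      have h1 := he'.bij hne' hp2m h0
      have h2 := congrArg Prod.fst h1
      simpa using h2
    have hcw : c • v = w x := by
      rw [← hcv, hι, hw, eq_neg_of_add_eq_zero_left hz, map_neg, sub_eq_add_neg]
    -- saturation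
    have hjv : c • j v = τ₁ (1 - A * A) x := by
      rw [← map_smul, hcw, hjw x hx]
    have hjvm : j v ∈ locPart τ₁ (mx a) := by
      rw [he.mem_iff]
      have h1 : c • (τ₁ e (j v) - j v) = 0 := by
        rw [smul_sub, ← map_smul, hjv, he.apply_eq (τ_mem_locPart _ hx), sub_self]
      exact sub_eq_zero.mp (htf₁ c hc _ h1)
    obtain ⟨x', hx', hx'v⟩ := he.surj hD hjvm
    have hxx' : x = c • x' := by
      have h1 : τ₁ (1 - A * A) (x - c • x') = 0 := by
        rw [map_sub, ← hjv, map_smul, hx'v, sub_self]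
      exact sub_eq_zero.mp (he.bij hD (sub_mem hx (Submodule.smul_mem _ _ hx')) h1)
    refine ⟨x', hx', ?_⟩
    have h1 : c • (w x' - v) = 0 := by
      rw [smul_sub, hcw, hxx', map_smul, sub_self]
    exact sub_eq_zero.mp (htf₂ c hc _ h1)
  refine ⟨?_, ?_, ?_⟩
  · intro v hv
    obtain ⟨x, hx, rfl⟩ := hwsurj v hv
    rw [hjw x hx]
    exact τ_mem_locPart _ hx
  · intro v hv h0
    obtain ⟨x, hx, rfl⟩ := hwsurj v hv
    rw [hjw x hx] at h0
    rw [he.bij hD hx h0, map_zero]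
  · intro x hx
    obtain ⟨y, hy, rfl⟩ := he.surj hD hx
    exact ⟨w y, hwmem y hy, hjw y hy⟩

end TW

section Level

open Matrix.SpecialLinearGroup CongruenceSubgroup H22 IsLocalRing ModularGroup
open scoped MatrixGroups

variable {O : Type u} [CommRing O] [IsDomain O] [IsDiscreteValuationRing O]
  [IsAdicComplete (maximalIdeal O) O] [Finite (ResidueField O)] {σ : Type} (pr : σ → Nat.Primes)

/-- **Level change at an auxiliary prime.** -/
theorem tw_level_gen {M q : ℕ} [NeZero M] [NeZero q] [NeZero (M * q)] (hq : q.Prime) (hM : ¬ q ∣ M)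
    (hpr : Function.Injective pr) (i₀ : σ) (hi₀ : (pr i₀ : ℕ) = q) (a : σ → ResidueField O)
    (α β : ResidueField O) (hαβ : α * β = ((q : ℕ) : ResidueField O)) (ha : a i₀ = α + β)
    (hne : α ≠ β) (hα0 : α ≠ 0) (hα1 : α * α ≠ 1) [DecidableEq σ]
    (hold : ∀ v ∈ locPart (hAct O (M * q) ⊤ O pr) (mx (Function.update a i₀ α)),
      ∃ c : O, c ≠ 0 ∧ ∃ x y : HM (GamH M ⊤) O,
        c • v = res O O GamHq_le x + Bdeg O M q O y) :
    (∀ v ∈ locPart (hAct O (M * q) ⊤ O pr) (mx (Function.update a i₀ α)),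
      tr O O (GamH M ⊤) (GamH (M * q) ⊤) v ∈ locPart (hAct O M ⊤ O pr) (mx a)) ∧
    (∀ v ∈ locPart (hAct O (M * q) ⊤ O pr) (mx (Function.update a i₀ α)),
      tr O O (GamH M ⊤) (GamH (M * q) ⊤) v = 0 → v = 0) ∧
    (∀ x ∈ locPart (hAct O M ⊤ O pr) (mx a),
      ∃ v ∈ locPart (hAct O (M * q) ⊤ O pr) (mx (Function.update a i₀ α)),
        tr O O (GamH M ⊤) (GamH (M * q) ⊤) v = x) := by
  have hf1 : Module.Finite O (HM (GamH M ⊤) O) := finite_HM _ O O
  have hf2 : Module.Finite O (HM (GamH (M * q) ⊤) O) := finite_HM _ O O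
  have hpri : ∀ i, i ≠ i₀ → ((pr i : ℕ)) ≠ q := by
    intro i hi h
    apply hi
    apply hpr
    apply Subtype.ext
    exact h.trans hi₀.symm
  have hX0 : ∀ {N : ℕ} [NeZero N] (x : HM (GamH N ⊤) O),
      hAct O N ⊤ O pr (MvPolynomial.X i₀) x = TH O N ⊤ O q x := by
    intro N _ x
    rw [hAct_X]
    subst hi₀
    rfl
  have hXi : ∀ {N : ℕ} [NeZero N] (i : σ) (x : HM (GamH N ⊤) O),
      hAct O N ⊤ O pr (MvPolynomial.X i) x =
        haveI : NeZero ((pr i : ℕ)) := ⟨(pr i).2.ne_zero⟩; TH O N ⊤ O (pr i : ℕ) x := by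
    intro N _ i x
    rw [hAct_X]
    rfl
  refine tw_bijective_gen (hAct O M ⊤ O pr) (hAct O (M * q) ⊤ O pr)
    (fun c hc x => hm_torsionFree c hc x) (fun c hc x => hm_torsionFree c hc x) i₀
    (res O O GamHq_le) (Bdeg O M q O) (tr O O (GamH M ⊤) (GamH (M * q) ⊤)) (q : O)
    (fun x => ?_) (fun x => ?_) (fun x => ?_) (fun x => ?_) (fun i hi x => ?_) (fun i hi x => ?_)
    a α β (by rw [map_natCast]; exact hαβ) ha hne hα0 hα1 hold
  · rw [hX0]
    exact U_res hq x
  · rw [hX0, hX0]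
    exact eq_sub_of_add_eq (U_B hq hM x)
  · exact tr_res' hq hM x
  · rw [hX0]
    exact tr_B x
  · rw [hXi, hXi]
    have : NeZero ((pr i : ℕ)) := ⟨(pr i).2.ne_zero⟩
    refine (TH_res_level GamHq_le rfl (pr i).2 ?_ x).symm
    intro h
    exact hpri i hi ((Nat.prime_dvd_prime_iff_eq (pr i).2 hq).mp h)
  · rw [hXi, hXi]
    have : NeZero ((pr i : ℕ)) := ⟨(pr i).2.ne_zero⟩
    exact (TH_B (pr i).2 hq (hpri i hi) x).symm

end Level

section Level'

open CongruenceSubgroup ModularForm Matrix.SpecialLinearGroup ModularCurve H22 H16 AL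
open IsLocalRing
open scoped MatrixGroups
open ModularFormClass (qCoeff)

variable {O : Type u} [CommRing O] [IsDomain O] [IsDiscreteValuationRing O] [CharZero O]
  [IsAdicComplete (maximalIdeal O) O] [Finite (ResidueField O)] {σ : Type} (pr : σ → Nat.Primes)
  {D : ℕ} {M q : ℕ} [NeZero M] [NeZero q] [NeZero (M * q)]

/-- **Level change at an auxiliary prime**, unconditional. -/
theorem tw_level_gen' (hD : D ≠ 0) (hq : q.Prime) (hM : ¬ q ∣ M) (hND : M * q ∣ D)
    (hpr : Function.Injective pr) (ι : Pr D → σ) (hι : ∀ ℓ, ((pr (ι ℓ) : ℕ)) = ℓ)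
    (i₀ : σ) (hi₀ : (pr i₀ : ℕ) = q) (a : σ → ResidueField O)
    (α β : ResidueField O) (hαβ : α * β = ((q : ℕ) : ResidueField O)) (ha : a i₀ = α + β)
    (hne : α ≠ β) (hα0 : α ≠ 0) (hα1 : α * α ≠ 1) [DecidableEq σ]
    (hnew : ∀ (L : ℕ) (_ : NeZero L) (g : CuspForm (Gamma0 L) 2), L ∣ M * q → q ∣ L →
      g.IsNewform → ∃ s : MvPolynomial (Pr D) ℤ,
        MvPolynomial.aeval (fun ℓ : Pr D => qCoeff g ℓ) s = 0 ∧
        MvPolynomial.aeval (fun ℓ : Pr D => a (ι ℓ)) s ≠ 0)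
    (ℓ₀ : Pr D) (hℓ₀ : ((M * q : ℕ) : ℤ) ∣ (ℓ₀ : ℤ) - 1)
    (hℓ₀' : a (ι ℓ₀) ≠ ((ℓ₀ : ℕ) : ResidueField O) + 1) :
    (∀ v ∈ locPart (hAct O (M * q) ⊤ O pr) (mx (Function.update a i₀ α)),
      tr O O (GamH M ⊤) (GamH (M * q) ⊤) v ∈ locPart (hAct O M ⊤ O pr) (mx a)) ∧
    (∀ v ∈ locPart (hAct O (M * q) ⊤ O pr) (mx (Function.update a i₀ α)),
      tr O O (GamH M ⊤) (GamH (M * q) ⊤) v = 0 → v = 0) ∧
    (∀ x ∈ locPart (hAct O M ⊤ O pr) (mx a),
      ∃ v ∈ locPart (hAct O (M * q) ⊤ O pr) (mx (Function.update a i₀ α)),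
        tr O O (GamH M ⊤) (GamH (M * q) ⊤) v = x) := by
  have hne₀ : ∀ ℓ : Pr D, ι ℓ ≠ i₀ := by
    intro ℓ h
    have h1 := hι ℓ
    rw [h, hi₀] at h1
    exact ℓ.2.2 (h1 ▸ (dvd_mul_left q M).trans hND)
  refine tw_level_gen pr hq hM hpr i₀ hi₀ a α β hαβ ha hne hα0 hα1 ?_
  refine hold_of pr hD hq hM hND ι hι (Function.update a i₀ α) ?_ ℓ₀ hℓ₀ ?_
  · intro L hL g h1 h2 h3
    obtain ⟨s, hs, hs'⟩ := hnew L hL g h1 h2 h3
    refine ⟨s, hs, ?_⟩
    have h4 : (fun ℓ : Pr D => Function.update a i₀ α (ι ℓ)) = fun ℓ : Pr D => a (ι ℓ) := by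
      funext ℓ
      exact Function.update_of_ne (hne₀ ℓ) _ _
    rw [h4]
    exact hs'
  · rw [Function.update_of_ne (hne₀ ℓ₀)]
    exact hℓ₀'


/-- `TrIso` version -/
theorem trIso_aux (hD : D ≠ 0) (hq : q.Prime) (hM : ¬ q ∣ M) (hND : M * q ∣ D)
    (hpr : Function.Injective pr) (ι : Pr D → σ) (hι : ∀ ℓ, ((pr (ι ℓ) : ℕ)) = ℓ)
    (i₀ : σ) (hi₀ : (pr i₀ : ℕ) = q) (a : σ → ResidueField O)
    (α β : ResidueField O) (hαβ : α * β = ((q : ℕ) : ResidueField O)) (ha : a i₀ = α + β)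
    (hne : α ≠ β) (hα0 : α ≠ 0) (hα1 : α * α ≠ 1) [DecidableEq σ]
    (hnew : ∀ (L : ℕ) (_ : NeZero L) (g : CuspForm (Gamma0 L) 2), L ∣ M * q → q ∣ L →
      g.IsNewform → ∃ s : MvPolynomial (Pr D) ℤ,
        MvPolynomial.aeval (fun ℓ : Pr D => qCoeff g ℓ) s = 0 ∧
        MvPolynomial.aeval (fun ℓ : Pr D => a (ι ℓ)) s ≠ 0)
    (ℓ₀ : Pr D) (hℓ₀ : ((M * q : ℕ) : ℤ) ∣ (ℓ₀ : ℤ) - 1)
    (hℓ₀' : a (ι ℓ₀) ≠ ((ℓ₀ : ℕ) : ResidueField O) + 1) :
    TrIso O pr M (M * q) a (Function.update a i₀ α) :=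
  tw_level_gen' pr hD hq hM hND hpr ι hι i₀ hi₀ a α β hαβ ha hne hα0 hα1 hnew ℓ₀ hℓ₀ hℓ₀'

end Level'

end Fermat.Agent.H24R
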